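import Fermat.Agent.OrderDensity.Lift

/-!
# Primes in the denominators and points reducing to zero

At a prime of good reduction a rational point reduces to zero exactly if it is zero or the prime
divides the denominator of its first coordinate.
-/

set_option autoImplicit false
set_option linter.style.haveILetI false

noncomputable section

open WeierstrassCurve WeierstrassCurve.Affine FA.Frob FA.EC FA.PointDiv
open scoped WeierstrassCurve.Affine Classical

local notation "Qb" => AlgebraicClosure ℚ

namespace FA.EDS

/-- The prime `q` divides the denominator of the first coordinate of `R`, which counts as satisfied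
by the zero point. -/
def DenDvd {E : WeierstrassCurve ℚ} (R : E.toAffine.Point) (q : ℕ) : Prop :=
  R = 0 ∨ ∃ (a b : ℚ) (h : E.toAffine.Nonsingular a b), R = .some a b h ∧ q ∣ a.den

/-- A prime dividing the denominator puts the number outside the valuation ring. -/
theorem not_mem_of_dvd_den {q : ℕ} (hq : q.Prime) {A : ValuationSubring Qb}
    (hA : A.LiesOverPrime q) {a : ℚ} (ha : q ∣ a.den) : algebraMap ℚ Qb a ∉ A := by
  intro hmem
  have hnum : A.valuation ((a.num : ℤ) : Qb) = 1 :=
    valuation_intCast_of_liesOverPrime hq hA fun h => by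
      exact hq.not_dvd_one ((Nat.Coprime.eq_one_of_dvd (a.reduced.coprime_dvd_left
        (Int.natCast_dvd.mp h)) ha) ▸ dvd_rfl)
  obtain ⟨m, hm⟩ := ha
  have hden : A.valuation ((a.den : ℕ) : Qb) < 1 := by
    rw [hm, Nat.cast_mul, map_mul]
    calc A.valuation (q : Qb) * A.valuation (m : Qb) ≤ A.valuation (q : Qb) * 1 := by
          gcongr
          exact (A.valuation_le_one_iff _).mpr (natCast_mem A m)
      _ < 1 := by rw [mul_one]; exact hA
  have e : ((a.num : ℤ) : Qb) = algebraMap ℚ Qb a * ((a.den : ℕ) : Qb) := by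
    rw [eq_ratCast, Rat.cast_def, div_mul_cancel₀ _ (Nat.cast_ne_zero.mpr a.den_nz)]
  have : A.valuation ((a.num : ℤ) : Qb) < 1 := by
    rw [e, map_mul]
    calc A.valuation (algebraMap ℚ Qb a) * A.valuation ((a.den : ℕ) : Qb)
        ≤ 1 * A.valuation ((a.den : ℕ) : Qb) := by
          gcongr
          exact (A.valuation_le_one_iff _).mpr hmem
      _ < 1 := by rwa [one_mul]
  exact this.ne hnum

variable {W : WeierstrassCurve ℤ} {q : ℕ} [hq : Fact q.Prime]

/-- **Reduction to zero is divisibility of the denominator.** -/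
theorem red_eq_zero_iff {A : ValuationSubring Qb} [CharP (Res A) q]
    [(redCurve A ((ratCurve W)⁄Qb).toAffine (intCoeff_ratCurve W A)).IsElliptic]
    (hA : A.LiesOverPrime q) (hgood : W.IsGoodPrimeFor q) (R : (ratCurve W).toAffine.Point) :
    redHom (intCoeff_ratCurve W A) (valuation_Δ_ratCurve W hq.out hA hgood) (up W R) = 0 ↔
      DenDvd R q := by
  rcases R with _ | ⟨a, b, hab⟩
  · refine iff_of_true ?_ (Or.inl rfl)
    show redHom _ _ (up W 0) = 0
    rw [map_zero, map_zero]
  have hup : up W (.some a b hab) = .some (algebraMap ℚ Qb a) (algebraMap ℚ Qb b)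
      (nonsingular_mapHom (algebraMap ℚ Qb) rfl hab :
        ((ratCurve W).toAffine⁄Qb).Nonsingular _ _) := rfl
  rw [hup, redHom_apply]
  by_cases hd : q ∣ a.den
  · refine iff_of_true ?_ (Or.inr ⟨a, b, hab, rfl, hd⟩)
    exact dif_neg (not_mem_of_dvd_den hq.out hA hd)
  · obtain ⟨k, e⟩ := redFun_of_mem (intCoeff_ratCurve W A)
      (nonsingular_mapHom (algebraMap ℚ Qb) rfl hab :
        ((ratCurve W).toAffine⁄Qb).Nonsingular _ _) (ratCast_mem_and_resOf hA hd).1
    refine iff_of_false (fun h => Affine.Point.some_ne_zero _ (e.symm.trans h)) ?_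
    rintro (h | ⟨c, d, hcd, h, hdvd⟩)
    · exact Affine.Point.some_ne_zero _ h
    · simp only [Affine.Point.some.injEq] at h
      exact hd (h.1 ▸ hdvd)

end FA.EDS

end
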